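import Mathlib.GroupTheory.Finiteness
import Mathlib.RingTheory.Finiteness.Basic
import Mathlib.Algebra.Module.Submodule.Basic
import Mathlib.LinearAlgebra.Span.Basic

/-!
# S22, algebra core (A2): the values of a (twisted) cocycle on a finitely generated group
span a finitely generated `ℤ`-module.
-/

set_option autoImplicit false

namespace Fermat.Agent.S22.H75

/-- Let `G` be a finitely generated group and `c : G → ι → X` (`ι` finite, `X` an abelian group)
satisfy the twisted cocycle relation `c (g * h) j = ∑ l, A h j l • c g l + c h j` with integer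
matrices `A h`, and `c 1 = 0`.  Then the `ℤ`-span of all the `c g j` is finitely generated. -/
theorem fg_span_of_cocycle {G : Type*} [Group G] [Group.FG G] {X : Type*} [AddCommGroup X]
    {ι : Type*} [Fintype ι] (A : G → ι → ι → ℤ) (c : G → ι → X)
    (h1 : ∀ j, c 1 j = 0)
    (hc : ∀ g h j, c (g * h) j = (∑ l, A h j l • c g l) + c h j) :
    (Submodule.span ℤ (Set.range fun x : G × ι => c x.1 x.2)).FG := by
  classical
  obtain ⟨S, hS, hSfin⟩ := Group.fg_iff.mp (inferInstance : Group.FG G)
  -- symmetric generating set as a monoid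
  set S' : Set G := S ∪ S⁻¹ with hS'
  have hS'fin : S'.Finite := hSfin.union hSfin.inv
  have hmon : Submonoid.closure S' = ⊤ := by
    have h := Subgroup.closure_toSubmonoid S
    rw [hS] at h
    rw [hS', ← h]
    rfl
  set M : Submodule ℤ X := Submodule.span ℤ ((fun x : G × ι => c x.1 x.2) '' (S' ×ˢ Set.univ))
    with hM
  have hMfg : M.FG :=
    Submodule.fg_span ((hS'fin.prod Set.finite_univ).image _)
  have hgen : ∀ (s : G), s ∈ S' → ∀ j, c s j ∈ M := fun s hs j =>
    Submodule.subset_span ⟨(s, j), ⟨hs, Set.mem_univ _⟩, rfl⟩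
  have key : ∀ g : G, ∀ j, c g j ∈ M := by
    intro g
    have hg : g ∈ Submonoid.closure S' := by rw [hmon]; exact Submonoid.mem_top g
    induction hg using Submonoid.closure_induction_right with
    | one => intro j; rw [h1 j]; exact M.zero_mem
    | mul_right x _ y hy ih =>
      intro j
      rw [hc x y j]
      exact M.add_mem (M.sum_mem fun l _ => M.smul_mem _ (ih l)) (hgen y hy j)
  have heq : Submodule.span ℤ (Set.range fun x : G × ι => c x.1 x.2) = M := by
    apply le_antisymm
    · rw [Submodule.span_le]
      rintro _ ⟨⟨g, j⟩, rfl⟩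
      exact key g j
    · exact Submodule.span_mono (Set.image_subset_range _ _)
  rw [heq]
  exact hMfg

end Fermat.Agent.S22.H75
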