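import Mathlib.GroupTheory.Schreier
import Mathlib.LinearAlgebra.Matrix.FixedDetMatrices
import Mathlib.NumberTheory.ModularForms.CongruenceSubgroups

/-!
# S22, algebra core (A3): `Γ₀(N)` is a finitely generated group.
-/

set_option autoImplicit false

namespace Fermat.Agent.S22.H75

open Matrix Matrix.SpecialLinearGroup

/-- `SL(2, ℤ)` is finitely generated (by `S` and `T`). -/
theorem fg_SL2Z : Group.FG (SpecialLinearGroup (Fin 2) ℤ) := by
  rw [Group.fg_iff]
  exact ⟨{ModularGroup.S, ModularGroup.T}, SpecialLinearGroup.SL2Z_generators,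
    Set.toFinite _⟩

/-- `Γ₀(N)` is a finitely generated group (Schreier's lemma). -/
theorem fg_Gamma0 (N : ℕ) [NeZero N] : Group.FG ↥(CongruenceSubgroup.Gamma0 N) := by
  have := fg_SL2Z
  infer_instance

end Fermat.Agent.S22.H75
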