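import Mathlib.RingTheory.Noetherian.Basic
import Mathlib.RingTheory.PrincipalIdealDomain
import Mathlib.Algebra.EuclideanDomain.Int
import Mathlib.RingTheory.Adjoin.Basic
import Mathlib.LinearAlgebra.Dual.Defs
import Mathlib.Analysis.Complex.Basic

/-!
# S22, algebra core (A1): a `ℤ`-algebra of endomorphisms stabilising a finitely generated
separating lattice of linear forms is a finitely generated `ℤ`-module.
-/

set_option autoImplicit false

namespace Fermat.Agent.S22.H75

/-- Precomposition of linear forms in a lattice `Λ` by an endomorphism stabilising `Λ`. -/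
noncomputable def precompHom {V : Type*} [AddCommGroup V] [Module ℂ V]
    (Λ : Submodule ℤ (Module.Dual ℂ V)) (a : Module.End ℂ V)
    (ha : ∀ l ∈ Λ, l ∘ₗ a ∈ Λ) : Λ →ₗ[ℤ] Λ where
  toFun l := ⟨(l : Module.Dual ℂ V) ∘ₗ a, ha l l.2⟩
  map_add' l₁ l₂ := Subtype.ext (by simp [LinearMap.add_comp])
  map_smul' n l := Subtype.ext (by simp [LinearMap.smul_comp])

/-- **Assembly lemma.** Let `Λ` be a finitely generated `ℤ`-submodule of the dual of a complex
vector space `V` which separates the points of `V`.  If every element of a set `gens` of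
endomorphisms of `V` stabilises `Λ` (by precomposition), then the `ℤ`-algebra generated by
`gens` is a finitely generated `ℤ`-module. -/
theorem finite_adjoin_of_stable_lattice {V : Type*} [AddCommGroup V] [Module ℂ V]
    (Λ : Submodule ℤ (Module.Dual ℂ V)) (hfg : Λ.FG)
    (hsep : ∀ v : V, (∀ l ∈ Λ, l v = 0) → v = 0)
    (gens : Set (Module.End ℂ V))
    (hstab : ∀ t ∈ gens, ∀ l ∈ Λ, l ∘ₗ t ∈ Λ) :
    Module.Finite ℤ ↥(Algebra.adjoin ℤ gens) := by
  classical
  -- every element of the adjoin stabilises `Λ`
  have hstab' : ∀ a ∈ Algebra.adjoin ℤ gens, ∀ l ∈ Λ, l ∘ₗ a ∈ Λ := by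
    intro a ha
    induction ha using Algebra.adjoin_induction with
    | mem t ht => exact hstab t ht
    | algebraMap r =>
      intro l hl
      have : l ∘ₗ (algebraMap ℤ (Module.End ℂ V) r) = r • l := by
        ext v
        simp
      rw [this]
      exact Λ.smul_mem r hl
    | add x y _ _ hx hy =>
      intro l hl
      rw [LinearMap.comp_add]
      exact Λ.add_mem (hx l hl) (hy l hl)
    | mul x y _ _ hx hy =>
      intro l hl
      have : l ∘ₗ (x * y) = (l ∘ₗ x) ∘ₗ y := rfl
      rw [this]
      exact hy _ (hx l hl)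
  have hfin : Module.Finite ℤ Λ := Module.Finite.iff_fg.mpr hfg
  have hnoeth : IsNoetherian ℤ Λ := isNoetherian_of_isNoetherianRing_of_finite ℤ Λ
  -- the embedding into `Λ →ₗ[ℤ] Λ`
  let Φ : ↥(Algebra.adjoin ℤ gens) →ₗ[ℤ] (Λ →ₗ[ℤ] Λ) :=
    { toFun := fun a => precompHom Λ a.1 (hstab' a.1 a.2)
      map_add' := fun a b => by
        ext l
        simp [precompHom, LinearMap.comp_add]
      map_smul' := fun n a => by
        ext l
        simp [precompHom] }
  have hΦ : Function.Injective Φ := by
    intro a b hab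
    apply Subtype.ext
    refine LinearMap.ext fun v => ?_
    rw [← sub_eq_zero]
    apply hsep
    intro l hl
    have h1 := congrArg (fun F : Λ →ₗ[ℤ] Λ => ((F ⟨l, hl⟩ : Λ) : Module.Dual ℂ V) v) hab
    simp only [Φ, precompHom, LinearMap.coe_mk, AddHom.coe_mk, LinearMap.comp_apply] at h1
    rw [map_sub, h1, sub_self]
  exact Module.Finite.of_injective Φ hΦ

end Fermat.Agent.S22.H75
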