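import Fermat.Prelude.Def_CuspForm_HeckeAlgebra
import Fermat.Agent.S22.H75.Assembly

/-!
# S22, algebra core (A1, specialised): finiteness of the Hecke algebra from a finitely
generated, separating, Hecke-stable lattice of linear forms on the space of cusp forms.
-/

set_option autoImplicit false

namespace Fermat.Agent.S22.H75

open CuspForm

/-- If a finitely generated `ℤ`-lattice `Λ` of linear forms on `S_k(Γ₀(N))` separates points and
is stable under precomposition by all the Hecke operators `T_ℓ` (`ℓ ∤ N`) and `U_q` (`q ∣ N`),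
then the Hecke algebra `heckeAlgebra N k S` is a finitely generated `ℤ`-module (any `S`). -/
theorem finite_heckeAlgebra_of_lattice (N : ℕ) [NeZero N] (k : ℤ) (S : Set ℕ)
    (Λ : Submodule ℤ (Module.Dual ℂ (CuspForm (CongruenceSubgroup.Gamma0 N) k)))
    (hfg : Λ.FG)
    (hsep : ∀ f : CuspForm (CongruenceSubgroup.Gamma0 N) k, (∀ l ∈ Λ, l f = 0) → f = 0)
    (hT : ∀ (ℓ : ℕ) (hℓ : ℓ.Prime) (hℓN : ¬ ℓ ∣ N), ∀ l ∈ Λ, l ∘ₗ heckeTLin k hℓ hℓN ∈ Λ)
    (hU : ∀ (q : ℕ) (hqN : q ∣ N), q.Prime → ∀ l ∈ Λ, l ∘ₗ heckeULin k hqN ∈ Λ) :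
    Module.Finite ℤ (CuspForm.heckeAlgebra N k S) := by
  refine finite_adjoin_of_stable_lattice Λ hfg hsep (heckeGenerators N k S) ?_
  rintro t (⟨ℓ, hℓ, hℓN, -, rfl⟩ | ⟨q, hqN, hq, -, rfl⟩) l hl
  · exact hT ℓ hℓ hℓN l hl
  · exact hU q hqN hq l hl

end Fermat.Agent.S22.H75
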