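import Fermat.Agent.S22.H75.Trivial

/-!
# S22, algebra core (A4, convenience): weights `k ≤ 1`.
-/

set_option autoImplicit false

namespace Fermat.Agent.S22.H75

open CongruenceSubgroup

/-- Cusp forms of weight `k ≤ 1` on `Γ₀(N)` vanish. -/
theorem cuspForm_eq_zero_of_weight_le_one (N : ℕ) [NeZero N] {k : ℤ} (hk : k ≤ 1)
    (f : CuspForm (Gamma0 N) k) : f = 0 := by
  rcases hk.lt_or_eq with hk | rfl
  · have hk0 : k ≤ 0 := by omega
    rcases hk0.lt_or_eq with hk | rfl
    · exact cuspForm_eq_zero_of_neg_weight N hk f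
    · exact cuspForm_eq_zero_of_weight_zero N f
  · exact cuspForm_eq_zero_of_odd_weight N odd_one f

/-- For `k ≤ 1` the Hecke algebra is a finite `ℤ`-module. -/
theorem finite_heckeAlgebra_of_weight_le_one (N : ℕ) [NeZero N] (k : ℤ) (S : Set ℕ)
    (hk : k ≤ 1) : Module.Finite ℤ (CuspForm.heckeAlgebra N k S) := by
  refine finite_heckeAlgebra_of_trivial_weight N k S ?_
  rcases hk.lt_or_eq with hk | rfl
  · exact Or.inl (by omega)
  · exact Or.inr odd_one

end Fermat.Agent.S22.H75
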