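import Mathlib.NumberTheory.ModularForms.NormTrace
import Fermat.Prelude.Def_CuspForm_HeckeAlgebra

/-!
# S22, algebra core (A4): the trivial weights.

For `k ≤ 0` and for odd `k` the space `S_k(Γ₀(N))` is zero, hence the Hecke algebra is the
zero ring and in particular a finite `ℤ`-module.
-/

set_option autoImplicit false

namespace Fermat.Agent.S22.H75

open UpperHalfPlane ModularForm CongruenceSubgroup Matrix.SpecialLinearGroup
open scoped MatrixGroups ModularForm

/-- Cusp forms of negative weight on `Γ₀(N)` vanish. -/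
theorem cuspForm_eq_zero_of_neg_weight (N : ℕ) [NeZero N] {k : ℤ} (hk : k < 0)
    (f : CuspForm (Gamma0 N) k) : f = 0 := by
  have h := ModularForm.isZero_of_neg_weight hk (ModularFormClass.modularForm f)
  ext τ
  have := congrArg (fun g : ModularForm (Gamma0 N) k => g τ) h
  simpa using this

/-- Cusp forms of weight zero on `Γ₀(N)` vanish. -/
theorem cuspForm_eq_zero_of_weight_zero (N : ℕ) [NeZero N]
    (f : CuspForm (Gamma0 N) 0) : f = 0 := by
  obtain ⟨c, hc⟩ := ModularForm.eq_const_of_weight_zero (ModularFormClass.modularForm f)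
  have hc' : (f : ℍ → ℂ) = Function.const ℍ c := hc
  -- `f` tends to zero at `i∞`
  have hcusp : IsCusp OnePoint.infty ((Gamma0 N : Subgroup SL(2, ℤ)) : Subgroup (GL (Fin 2) ℝ)) :=
    (Gamma0 N).isCusp_of_mem_strictPeriods (h := 1) one_pos (by simp [strictPeriods_Gamma0])
  have hz : IsZeroAtImInfty (f : ℍ → ℂ) :=
    (OnePoint.isZeroAt_infty_iff).mp (CuspFormClass.zero_at_cusps f hcusp)
  rw [hc'] at hz
  have hc0 : c = 0 := by
    have h1 : Filter.Tendsto (Function.const ℍ c) atImInfty (nhds 0) := hz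
    exact tendsto_nhds_unique tendsto_const_nhds h1
  ext τ
  rw [hc', hc0]
  rfl

end Fermat.Agent.S22.H75

namespace Fermat.Agent.S22.H75

open UpperHalfPlane ModularForm CongruenceSubgroup Matrix.SpecialLinearGroup
open scoped MatrixGroups ModularForm

/-- Cusp forms of odd weight on `Γ₀(N)` vanish (`-1 ∈ Γ₀(N)`). -/
theorem cuspForm_eq_zero_of_odd_weight (N : ℕ) {k : ℤ} (hk : Odd k)
    (f : CuspForm (Gamma0 N) k) : f = 0 := by
  have hmem : (-1 : SL(2, ℤ)) ∈ Gamma0 N := by
    rw [Gamma0_mem]
    simp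
  have h := SlashInvariantForm.slash_action_eqn_SL'' f hmem
  ext τ
  have h1 := h τ
  have hsmul : (-1 : SL(2, ℤ)) • τ = τ := by
    ext
    simp
  have hden : denom (-1 : SL(2, ℤ)) τ = -1 := by
    simp [denom]
  rw [hsmul, hden, hk.neg_one_zpow] at h1
  have h2 : (2 : ℂ) * f τ = 0 := by linear_combination h1
  simpa using h2

/-- In the trivial weights (`k ≤ 0` or `k` odd) the Hecke algebra is a finite `ℤ`-module. -/
theorem finite_heckeAlgebra_of_trivial_weight (N : ℕ) [NeZero N] (k : ℤ) (S : Set ℕ)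
    (hk : k ≤ 0 ∨ Odd k) : Module.Finite ℤ (CuspForm.heckeAlgebra N k S) := by
  have hsub : Subsingleton (CuspForm (Gamma0 N) k) := by
    refine ⟨fun f g => ?_⟩
    have hz : ∀ f : CuspForm (Gamma0 N) k, f = 0 := by
      intro f
      rcases hk with hk | hk
      · rcases hk.lt_or_eq with hk | rfl
        · exact cuspForm_eq_zero_of_neg_weight N hk f
        · exact cuspForm_eq_zero_of_weight_zero N f
      · exact cuspForm_eq_zero_of_odd_weight N hk f
    rw [hz f, hz g]
  have hsub2 : Subsingleton (Module.End ℂ (CuspForm (Gamma0 N) k)) :=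
    ⟨fun a b => LinearMap.ext fun x => Subsingleton.elim _ _⟩
  have hsub3 : Subsingleton (CuspForm.heckeAlgebra N k S) :=
    ⟨fun a b => Subtype.ext (Subsingleton.elim _ _)⟩
  infer_instance

end Fermat.Agent.S22.H75
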